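import Fermat.Agent.ArtinConductor.Main

/-!
# The Artin conductor is a nonnegative integer
-/

set_option autoImplicit false

noncomputable section

namespace Fermat.Agent.ArtinConductor

open HasseArf Module

variable {G L : Type*} [Group G] [Field L] [MulSemiringAction G L]
  {V : Type*} [AddCommGroup V] [Module ℂ V]

/-- The Artin conductor `∑ᵢ #Gᵢ / #G₀ · codim V ^ Gᵢ`. -/
def artinConductor (v : AddValuation L (WithTop ℤ)) (hv : ∀ (g : G) (x : L), v (g • x) = v x)
    (ρ : Representation ℂ G V) : ℚ :=
  ∑ᶠ i : ℕ, (Nat.card (lowerGroup v hv i) : ℚ) / Nat.card (lowerGroup v hv 0) *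
    ((finrank ℂ V : ℚ) - finrank ℂ
      (Representation.invariants (ρ.comp (lowerGroup v hv i).subtype :
        Representation ℂ (lowerGroup v hv i) V)))

variable [Finite G] [FaithfulSMul G L] [FiniteDimensional ℂ V]

/-- **Artin**: the conductor is a nonnegative integer. -/
theorem exists_artinConductor_eq_natCast (v : AddValuation L (WithTop ℤ))
    (hv : ∀ (g : G) (x : L), v (g • x) = v x) (hπ : ∃ π : L, v π = ((1 : ℤ) : WithTop ℤ))
    (hperf : ∀ p : ℕ, p.Prime → 0 < v (p : L) → ∀ x, 0 ≤ v x → ∃ y, 0 < v (x - y ^ p))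
    (ρ : Representation ℂ G V) : ∃ n : ℕ, artinConductor v hv ρ = n := by
  classical
  obtain ⟨π, hπ⟩ := hπ
  have : Fintype G := Fintype.ofFinite G
  set G₀ := lowerGroup v hv 0 with hG₀
  have : Fintype G₀ := Fintype.ofFinite G₀
  have hv₀ : ∀ (g : G₀) (x : L), v (g • x) = v x := fun g x => hv g x
  have htriv : ∀ (g : G₀) (x : L), 0 ≤ v x → 0 < v (g • x - x) := fun g x hx =>
    lt_of_lt_of_le (WithTop.coe_lt_coe.2 (show (0 : ℤ) < ((0 + 1 : ℕ) : ℤ) by omega)) (g.2 x hx)
  let T : TotallyRamified G₀ L :=
    { v := v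
      smul_v := hv₀
      π := π
      v_π := hπ
      rep := fun x hx => exists_fixed_rep v hv₀ htriv hperf hx.ge }
  have hfaith : ∀ g : G₀, T.ij g = ⊤ → g = 1 := fun g hg => by
    refine Subtype.ext (eq_of_smul_eq_smul (α := L) fun x => ?_)
    have hint : ∀ y : L, 0 ≤ v y → g • y = y := fun y hy => by
      have h := T.ij_le_v_smul_sub g hy
      rw [hg, top_le_iff, AddValuation.top_iff, sub_eq_zero] at h
      exact h
    change g • x = (1 : G) • x
    rw [one_smul]
    rcases le_total 0 (v x) with hx | hx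
    · exact hint x hx
    · have h0 : 0 ≤ v x⁻¹ := by
        rw [AddValuation.map_inv]
        revert hx
        generalize v x = q
        induction q using WithTop.recTopCoe with
        | top => exact fun _ => le_top
        | coe q =>
          intro hx
          rw [← WithTop.coe_zero, WithTop.coe_le_coe] at hx
          rw [← WithTop.LinearOrderedAddCommGroup.coe_neg, ← WithTop.coe_zero, WithTop.coe_le_coe]
          omega
      have := hint _ h0
      rwa [smul_inv'', inv_inj] at this
  have hmem : ∀ (g : G₀) (i : ℕ),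
      ((g : G) ∈ lowerGroup v hv i ↔ (((i + 1 : ℕ) : ℤ) : WithTop ℤ) ≤ T.ij g) := fun g i =>
    ⟨fun h => h π (le_trans (WithTop.coe_le_coe.2 zero_le_one) hπ.ge),
      fun h x hx => le_trans h (T.ij_le_v_smul_sub g hx)⟩
  have hnonneg : ∀ g : G₀, 0 ≤ iVal T g := fun g => by
    rcases eq_or_ne g 1 with rfl | hg
    · rw [iVal_one]
    · have := T.one_le_ij g
      rw [← coe_iVal T hfaith hg, WithTop.coe_le_coe] at this
      omega
  -- beyond `B` the groups are trivial
  set B : ℕ := (∑ g : G₀, iVal T g).toNat with hB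
  have hJ : ∀ g : G₀, iVal T g ≤ B := fun g => by
    rw [hB, Int.toNat_of_nonneg (Finset.sum_nonneg fun g _ => hnonneg g)]
    exact Finset.single_le_sum (fun g _ => hnonneg g) (Finset.mem_univ g)
  set r : ℕ → ℕ := fun i => finrank ℂ (Representation.invariants
    (ρ.comp (lowerGroup v hv i).subtype : Representation ℂ (lowerGroup v hv i) V)) with hr
  have havg : ∀ i, (Nat.card (lowerGroup v hv i) : ℂ) * ((finrank ℂ V : ℂ) - r i) =
      ∑ g : G₀, (if (g : G) ∈ lowerGroup v hv i then ρ.character 1 - ρ.character g else 0) := by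
    intro i
    have : Fintype (lowerGroup v hv i) := Fintype.ofFinite _
    have hc : (Nat.card (lowerGroup v hv i) : ℂ) ≠ 0 := Nat.cast_ne_zero.2 Nat.card_pos.ne'
    have := invertibleOfNonzero hc
    have h1 := Representation.card_inv_mul_sum_char_eq_finrank
      (ρ := (ρ.comp (lowerGroup v hv i).subtype : Representation ℂ (lowerGroup v hv i) V))
    rw [inv_mul_eq_iff_eq_mul₀ hc] at h1
    rw [← Finset.sum_filter, Finset.sum_sub_distrib, Finset.sum_const, nsmul_eq_mul,
      Representation.char_one]
    let e : {g : G₀ // (g : G) ∈ lowerGroup v hv i} ≃ lowerGroup v hv i :=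
      { toFun := fun x => ⟨(x.1 : G), x.2⟩
        invFun := fun x => ⟨⟨x.1, lowerGroup_antitone v hv (Nat.zero_le i) x.2⟩, x.2⟩
        left_inv := fun _ => rfl
        right_inv := fun _ => rfl }
    rw [mul_sub, ← h1, ← Fintype.card_subtype, ← Nat.card_eq_fintype_card, Nat.card_congr e,
      Finset.sum_subtype (p := fun g : G₀ => (g : G) ∈ lowerGroup v hv i) _
        (fun g => by simp) fun g => ρ.character g]
    exact congrArg _ (Fintype.sum_equiv e _ _ fun _ => rfl).symm
  have hsupp : (Function.support fun i : ℕ =>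
      (Nat.card (lowerGroup v hv i) : ℚ) / Nat.card G₀ * ((finrank ℂ V : ℚ) - r i)) ⊆
      ↑(Finset.range B) := by
    intro i hi
    rw [Finset.coe_range, Set.mem_Iio]
    by_contra hle
    refine hi ?_
    have h0 := havg i
    rw [Finset.sum_eq_zero fun g _ => ?_] at h0
    · have h1 : (finrank ℂ V : ℚ) - r i = 0 := by
        have h2 := (mul_eq_zero.1 h0).resolve_left (Nat.cast_ne_zero.2 Nat.card_pos.ne')
        rw [sub_eq_zero, Nat.cast_inj] at h2
        rw [h2, sub_self]
      simp [h1]
    rcases eq_or_ne g 1 with rfl | hg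
    · simp
    · rw [if_neg]
      rw [hmem, ← coe_iVal T hfaith hg, WithTop.coe_le_coe]
      have := hJ g
      omega
  have hcount : ∀ g : G₀, g ≠ 1 →
      (((Finset.range B).filter fun i => (g : G) ∈ lowerGroup v hv i).card : ℤ) = iVal T g := by
    intro g hg
    have e : ((Finset.range B).filter fun i => (g : G) ∈ lowerGroup v hv i) =
        Finset.range (iVal T g).toNat := by
      ext i
      rw [Finset.mem_filter, hmem, ← coe_iVal T hfaith hg, WithTop.coe_le_coe, Finset.mem_range,
        Finset.mem_range]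
      have := hJ g
      omega
    rw [e, Finset.card_range, Int.toNat_of_nonneg (hnonneg g)]
  -- the integer
  obtain ⟨z, hz⟩ := artinSum_character T hfaith
    (ρ.comp G₀.subtype : Representation ℂ G₀ V)
  have hfc : artinConductor v hv ρ = ∑ i ∈ Finset.range B,
      (Nat.card (lowerGroup v hv i) : ℚ) / Nat.card G₀ * ((finrank ℂ V : ℚ) - r i) := by
    rw [artinConductor, finsum_eq_sum_of_support_subset _ hsupp]
  have hz' : artinConductor v hv ρ = (z : ℚ) := by
    have h0 : (Fintype.card G₀ : ℂ) ≠ 0 := Nat.cast_ne_zero.2 Fintype.card_ne_zero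
    refine Rat.cast_injective (α := ℂ) ?_
    rw [hfc, Rat.cast_sum, Rat.cast_intCast]
    refine mul_right_cancel₀ h0 ?_
    rw [Finset.sum_mul, ← hz]
    push_cast
    rw [Nat.card_eq_fintype_card]
    simp only [div_mul_eq_mul_div, div_mul_cancel₀ _ h0, havg]
    rw [Finset.sum_comm, artinSum]
    refine Finset.sum_congr rfl fun g _ => ?_
    rw [← Finset.sum_filter, Finset.sum_const, nsmul_eq_mul]
    rcases eq_or_ne g 1 with rfl | hg
    · simp [iVal_one]
    · rw [show (((Finset.range B).filter fun i => (g : G) ∈ lowerGroup v hv i).card : ℂ) =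
        (iVal T g : ℂ) by exact_mod_cast hcount g hg]
      rfl
  refine ⟨z.toNat, ?_⟩
  have hpos : 0 ≤ artinConductor v hv ρ := by
    rw [hfc]
    refine Finset.sum_nonneg fun i _ => mul_nonneg (by positivity) (sub_nonneg.2 ?_)
    exact_mod_cast Submodule.finrank_le _
  rw [hz'] at hpos ⊢
  have hz0 : 0 ≤ z := by exact_mod_cast hpos
  exact_mod_cast (Int.toNat_of_nonneg hz0).symm

end Fermat.Agent.ArtinConductor
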