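import Fermat.Agent.HasseArf.Main
import Mathlib.GroupTheory.QuotientGroup.Basic
import Mathlib.RingTheory.IntegralDomain

/-!
# The conductor of a linear character

`artinSum χ = ∑ i(g) (χ 1 - χ g)` is `#G` times the conductor for a totally ramified group. For a
linear character it descends to the quotient by the kernel, where the theorem of Hasse and Arf
makes it divisible by the order.
-/

set_option autoImplicit false

noncomputable section

namespace Fermat.Agent.ArtinConductor

open HasseArf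

variable {G L : Type*} [Group G] [Field L] [MulSemiringAction G L]

/-- The valuation of `g π - π`, and `0` at `g = 1`. -/
def iVal (T : TotallyRamified G L) (g : G) : ℤ := (T.ij g).untopD 0

/-- `#G` times the conductor of a class function. -/
def artinSum [Fintype G] (T : TotallyRamified G L) (χ : G → ℂ) : ℂ :=
  ∑ g : G, (iVal T g : ℂ) * (χ 1 - χ g)

theorem iVal_one (T : TotallyRamified G L) : iVal T 1 = 0 := by rw [iVal, T.ij_one]; rfl

theorem coe_iVal (T : TotallyRamified G L) (hfaith : ∀ g, T.ij g = ⊤ → g = 1) {g : G}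
    (hg : g ≠ 1) : (iVal T g : WithTop ℤ) = T.ij g := by
  obtain ⟨a, ha⟩ := WithTop.ne_top_iff_exists.1 fun h => hg (hfaith g h)
  rw [iVal, ← ha]
  rfl

/-- The action of `G ⧸ K` on the fixed field of a normal subgroup `K`. -/
def quotientSMul (K : Subgroup G) [K.Normal] (q : G ⧸ K) (x : FixedPoints.subfield K L) :
    FixedPoints.subfield K L :=
  ⟨q.out • (x : L), fun k => by
    change (k : G) • q.out • (x : L) = q.out • (x : L)
    have hmem : q.out⁻¹ * k * q.out ∈ K := by
      simpa using ‹K.Normal›.conj_mem k k.2 q.out⁻¹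
    have h := x.2 ⟨_, hmem⟩
    change (q.out⁻¹ * k * q.out) • (x : L) = x at h
    rw [mul_smul, mul_smul, inv_smul_eq_iff] at h
    exact h⟩

theorem quotientSMul_mk (K : Subgroup G) [K.Normal] (g : G) (x : FixedPoints.subfield K L) :
    ((quotientSMul K (g : G ⧸ K) x : FixedPoints.subfield K L) : L) = g • (x : L) := by
  obtain ⟨h, hh⟩ := QuotientGroup.mk_out_eq_mul K g
  change (Quotient.out (g : G ⧸ K)) • (x : L) = _
  rw [hh, mul_smul]
  exact congrArg (g • ·) (x.2 h)

/-- The same, as an action by ring automorphisms. -/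
@[reducible] def quotientAction (K : Subgroup G) [K.Normal] :
    MulSemiringAction (G ⧸ K) (FixedPoints.subfield K L) where
  smul := quotientSMul K
  one_smul x := Subtype.ext ((quotientSMul_mk K 1 x).trans (one_smul G _))
  mul_smul q r x := by
    obtain ⟨a, rfl⟩ := QuotientGroup.mk_surjective q
    obtain ⟨b, rfl⟩ := QuotientGroup.mk_surjective r
    refine Subtype.ext ?_
    change ((quotientSMul K ((a : G ⧸ K) * b) x : FixedPoints.subfield K L) : L) =
      (quotientSMul K (a : G ⧸ K) (quotientSMul K (b : G ⧸ K) x) : FixedPoints.subfield K L)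
    rw [← QuotientGroup.mk_mul, quotientSMul_mk, quotientSMul_mk, quotientSMul_mk, mul_smul]
  smul_zero q := Subtype.ext (smul_zero q.out)
  smul_add q x y := Subtype.ext (smul_add q.out (x : L) (y : L))
  smul_one q := Subtype.ext (smul_one q.out)
  smul_mul q x y := Subtype.ext (smul_mul' q.out (x : L) (y : L))

/-- For a faithful linear character of a commutative group Hasse–Arf gives the divisibility. -/
theorem artinSum_linear_of_injective {H : Type*} [CommGroup H] [Fintype H] [MulSemiringAction H L]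
    (T : TotallyRamified H L) (hfaith : ∀ g, T.ij g = ⊤ → g = 1) {ψ : H →* ℂ}
    (hψ : Function.Injective ψ) :
    ∃ z : ℤ, artinSum T (fun x => ψ x) = (z : ℂ) * Fintype.card H := by
  classical
  by_cases hH : ∀ g : H, g = 1
  · exact ⟨0, by simp [artinSum, hH]⟩
  push Not at hH
  obtain ⟨g₀, hg₀⟩ := hH
  obtain ⟨g, hg, hmax⟩ := Finset.exists_max_image ((Finset.univ : Finset H).erase 1) (iVal T)
    ⟨g₀, Finset.mem_erase.2 ⟨hg₀, Finset.mem_univ _⟩⟩
  rw [Finset.mem_erase] at hg
  set b := iVal T g with hb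
  have hgb : T.ij g = (b : WithTop ℤ) := (coe_iVal T hfaith hg.1).symm
  have hb1 : 1 ≤ b := WithTop.coe_le_coe.1 (hgb ▸ T.one_le_ij g)
  have hcut : ∀ x : H, T.cutAt b x = if x = 1 then b else iVal T x := by
    intro x
    refine WithTop.coe_inj.1 ?_
    rw [T.coe_cutAt]
    split_ifs with hx
    · rw [hx, T.ij_one, min_eq_right le_top]
    · rw [← coe_iVal T hfaith hx, ← WithTop.coe_min,
        min_eq_left (hmax x (Finset.mem_erase.2 ⟨hx, Finset.mem_univ _⟩))]
  obtain ⟨z, hz⟩ := T.card_dvd_sum_cutAt hfaith hgb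
  refine ⟨z, ?_⟩
  have hlayer : ∀ x : H, (T.cutAt b x : ℂ) = ∑ t ∈ Finset.Icc 1 b.toNat,
      if x ∈ T.ijGE ((t : ℤ) : WithTop ℤ) then (1 : ℂ) else 0 := by
    intro x
    have h1 := T.coe_cutAt b x
    have h2 : 1 ≤ T.cutAt b x ∧ T.cutAt b x ≤ b := by
      refine ⟨WithTop.coe_le_coe.1 ?_, WithTop.coe_le_coe.1 ?_⟩
      · rw [h1]; exact le_min (T.one_le_ij x) (WithTop.coe_le_coe.2 hb1)
      · rw [h1]; exact min_le_right _ _
    rw [Finset.sum_boole]
    have e : (Finset.Icc 1 b.toNat).filter (fun t => x ∈ T.ijGE (((t : ℕ) : ℤ) : WithTop ℤ)) =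
        Finset.Icc 1 (T.cutAt b x).toNat := by
      ext t
      have h3 : (x ∈ T.ijGE (((t : ℕ) : ℤ) : WithTop ℤ) ∧ (t : ℤ) ≤ b) ↔
          (t : ℤ) ≤ T.cutAt b x := by
        rw [← (WithTop.coe_le_coe : ((t : ℤ) : WithTop ℤ) ≤ (T.cutAt b x : WithTop ℤ) ↔ _), h1,
          le_min_iff, WithTop.coe_le_coe]
        rfl
      simp only [Finset.mem_filter, Finset.mem_Icc]
      constructor
      · rintro ⟨⟨h4, h5⟩, h6⟩
        have := h3.1 ⟨h6, by omega⟩
        omega
      · rintro ⟨h4, h5⟩
        have h6 := h3.2 (by omega)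
        exact ⟨⟨h4, by omega⟩, h6.1⟩
    rw [e, Nat.card_Icc, Nat.add_sub_cancel]
    have : ((T.cutAt b x).toNat : ℤ) = T.cutAt b x := Int.toNat_of_nonneg (by omega)
    exact_mod_cast this.symm
  have hzero : ∑ x : H, (T.cutAt b x : ℂ) * ψ x = 0 := by
    simp only [hlayer, Finset.sum_mul]
    rw [Finset.sum_comm]
    refine Finset.sum_eq_zero fun t ht => ?_
    simp only [ite_mul, one_mul, zero_mul]
    rw [← Finset.sum_filter, ← Finset.sum_subtype_eq_sum_filter, Finset.subtype_univ]
    refine sum_hom_units_eq_zero (ψ.comp (T.ijGE ((t : ℤ) : WithTop ℤ)).subtype) fun h => hg.1 ?_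
    have hgm : g ∈ T.ijGE ((t : ℤ) : WithTop ℤ) := by
      change _ ≤ T.ij g
      rw [hgb, WithTop.coe_le_coe]
      have := (Finset.mem_Icc.1 ht).2
      omega
    exact hψ ((DFunLike.congr_fun h ⟨g, hgm⟩).trans ψ.map_one.symm)
  have hsum : ∀ F : H → ℂ, ∑ x : H, (T.cutAt b x : ℂ) * F x =
      ∑ x : H, (iVal T x : ℂ) * F x + b * F 1 := fun F => by
    rw [← Finset.add_sum_erase _ _ (Finset.mem_univ (1 : H)),
      ← Finset.add_sum_erase _ (fun x => (iVal T x : ℂ) * F x) (Finset.mem_univ (1 : H)),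
      hcut, if_pos rfl, iVal_one, Int.cast_zero, zero_mul, zero_add, add_comm]
    congr 1
    exact Finset.sum_congr rfl fun x hx => by rw [hcut, if_neg (Finset.ne_of_mem_erase hx)]
  have h1 := hsum fun _ => 1
  have h2 := hsum fun x => ψ x
  rw [hzero] at h2
  simp only [mul_one] at h1
  have hz' : ∑ x : H, (T.cutAt b x : ℂ) = (Fintype.card H : ℂ) * (z : ℂ) := by exact_mod_cast hz
  simp only [artinSum, map_one, mul_sub, mul_one, Finset.sum_sub_distrib]
  rw [map_one, mul_one] at h2
  linear_combination hz' - h1 + h2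

/-- The divisibility for every linear character. -/
theorem artinSum_linear [Fintype G] (T : TotallyRamified G L)
    (hfaith : ∀ g, T.ij g = ⊤ → g = 1) (ψ : G →* ℂˣ) :
    ∃ z : ℤ, artinSum T (fun x => (ψ x : ℂ)) = (z : ℂ) * Fintype.card G := by
  classical
  set K := ψ.ker with hK
  let _ := quotientAction (L := L) K
  let _ : CommGroup (G ⧸ K) :=
    { (inferInstance : Group (G ⧸ K)) with
      mul_comm := fun a b => QuotientGroup.kerLift_injective ψ (by
        rw [map_mul, map_mul, mul_comm]) }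
  have hH : ∀ h : K, T.ij (h : G) = ⊤ → h = 1 := fun h hh => Subtype.ext (hfaith h hh)
  let Q : TotallyRamified (G ⧸ K) (FixedPoints.subfield K L) :=
    { v := T.quotVal hH
      smul_v := fun q x => by
        rw [T.quotVal_apply, T.quotVal_apply]
        exact congrArg _ (T.smul_v q.out _)
      π := ⟨T.normπ K, T.normπ_mem K⟩
      v_π := by
        rw [T.quotVal_apply, T.v_normπ, WithTop.map_coe,
          Int.ediv_self (Nat.cast_ne_zero.2 Fintype.card_ne_zero)]
      rep := fun x hx => by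
        have hx' : T.v (x : L) = ((0 : ℤ) : WithTop ℤ) := by
          rw [T.v_coe_eq hH, hx, WithTop.map_coe, mul_zero]
        obtain ⟨c, hc, hxc⟩ := T.rep _ hx'
        refine ⟨⟨c, fun h => hc h⟩, fun q => Subtype.ext (hc q.out), ?_⟩
        refine lt_of_not_ge fun hle => absurd hxc (not_lt.2 ?_)
        have hsub : (x : L) - c =
            ((x - ⟨c, fun h => hc h⟩ : FixedPoints.subfield K L) : L) := rfl
        rw [hsub, T.v_coe_eq hH]
        refine le_trans (Monotone.withTop_map
          (fun a b hab => mul_le_mul_of_nonneg_left hab (Int.natCast_nonneg _)) hle) ?_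
        rw [WithTop.map_coe, mul_zero] }
  have hij : ∀ q : G ⧸ K, (Q.ij q).map ((Fintype.card K : ℤ) * ·) = ∑ h : K, T.ij (q.out * h) :=
    fun q => (T.v_coe_eq hH _).symm.trans (T.v_smul_sub_normπ_eq hH q.out)
  have hfin : ∀ q : G ⧸ K, q ≠ 1 → ∀ h : K, q.out * (h : G) ≠ 1 := fun q hq h he => hq (by
    rw [← q.out_eq]
    refine (QuotientGroup.eq_one_iff _).2 ?_
    rw [mul_eq_one_iff_eq_inv] at he
    rw [he]
    exact K.inv_mem h.2)
  have hval : ∀ q : G ⧸ K, q ≠ 1 →
      Q.ij q ≠ ⊤ ∧ (Fintype.card K : ℤ) * iVal Q q = ∑ h : K, iVal T (q.out * h) := fun q hq => by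
    have h1 := hij q
    rw [Finset.sum_congr rfl fun (h : K) _ => (coe_iVal T hfaith (hfin q hq h)).symm,
      ← WithTop.coe_sum] at h1
    obtain ⟨a, ha, ha'⟩ := exists_of_map_eq_coe h1
    exact ⟨ha ▸ WithTop.coe_ne_top, by rw [← ha', iVal, ha]; rfl⟩
  set ψ' : G ⧸ K →* ℂ := (Units.coeHom ℂ).comp (QuotientGroup.kerLift ψ) with hψ'
  obtain ⟨z, hz⟩ := artinSum_linear_of_injective Q
    (fun q hq => by_contra fun hne => (hval q hne).1 hq)
    (ψ := ψ') (Units.val_injective.comp (QuotientGroup.kerLift_injective ψ))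
  refine ⟨z, ?_⟩
  let e := (Subgroup.groupEquivQuotientProdSubgroup (s := K)).symm
  have hbij : Function.Bijective fun qh : (G ⧸ K) × K => qh.1.out * (qh.2 : G) := by
    refine ⟨fun a c h => ?_, fun x => ?_⟩
    · have h1 := congrArg (fun y : G => (y : G ⧸ K)) h
      simp only [QuotientGroup.mk_mul_of_mem _ a.2.2, QuotientGroup.mk_mul_of_mem _ c.2.2,
        Quotient.out_eq] at h1
      obtain ⟨q, h'⟩ := a
      obtain ⟨q', h''⟩ := c
      simp only at h h1
      subst h1
      exact Prod.ext rfl (Subtype.ext (mul_left_cancel h))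
    · refine ⟨((x : G ⧸ K), ⟨(x : G ⧸ K).out⁻¹ * x, ?_⟩), mul_inv_cancel_left _ _⟩
      exact QuotientGroup.eq.1 (x : G ⧸ K).out_eq
  have hcard : (Fintype.card G : ℂ) = Fintype.card (G ⧸ K) * Fintype.card K := by
    rw [← Fintype.card_of_bijective hbij, Fintype.card_prod, Nat.cast_mul]
  rw [hcard, ← mul_assoc, ← hz, artinSum, artinSum, ← hbij.sum_comp, Fintype.sum_prod_type,
    Finset.sum_mul]
  refine Finset.sum_congr rfl fun q _ => ?_
  have hψq : ∀ h : K, (ψ (q.out * h) : ℂ) = ψ' q := fun h => by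
    conv_rhs => rw [← q.out_eq]
    rw [map_mul, (MonoidHom.mem_ker).1 h.2, mul_one]
    rfl
  simp only [hψq, map_one, Units.val_one, ← Finset.sum_mul]
  by_cases hq : q = 1
  · rw [hq, map_one, sub_self, mul_zero, mul_zero, zero_mul]
  · rw [show ∑ h : K, (iVal T (q.out * h) : ℂ) = (Fintype.card K : ℂ) * (iVal Q q : ℂ) by
      exact_mod_cast (hval q hq).2.symm]
    ring

end Fermat.Agent.ArtinConductor
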