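import Fermat.Agent.ArtinConductor.Linear
import Fermat.Agent.BrauerInduction.Main
import Fermat.Agent.HasseArf.Theorem

/-!
# Artin's theorem on the conductor

By Brauer induction it is enough to treat characters induced from linear characters of subgroups,
where Herbrand's lemma gives the induction formula.
-/

set_option autoImplicit false

noncomputable section

namespace Fermat.Agent.ArtinConductor

open HasseArf Module FA.BrauerInduction FA.CharacterTheory

variable {G L : Type*} [Group G] [Field L] [MulSemiringAction G L]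

/-- The setting restricted to a subgroup. -/
def restrictTo (T : TotallyRamified G L) (H : Subgroup G) : TotallyRamified H L where
  v := T.v
  smul_v h x := T.smul_v h x
  π := T.π
  v_π := T.v_π
  rep x hx := by
    obtain ⟨c, hc, hxc⟩ := T.rep x hx
    exact ⟨c, fun h => hc h, hxc⟩

theorem iVal_restrictTo (T : TotallyRamified G L) (H : Subgroup G) (h : H) :
    iVal (restrictTo T H) h = iVal T (h : G) := rfl

theorem ij_conj (T : TotallyRamified G L) (x g : G) : T.ij (x * g * x⁻¹) = T.ij g := by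
  have key : ∀ x g : G, T.ij g ≤ T.ij (x * g * x⁻¹) := fun x g => by
    have h0 : ((0 : ℤ) : WithTop ℤ) ≤ T.v (x⁻¹ • T.π) := by
      rw [T.smul_v, T.v_π]; exact WithTop.coe_le_coe.2 zero_le_one
    refine (T.ij_le_v_smul_sub g h0).trans (le_of_eq ?_)
    rw [TotallyRamified.ij, ← T.smul_v x, smul_sub, mul_smul, mul_smul, smul_inv_smul]
  refine le_antisymm ?_ (key x g)
  have := key x⁻¹ (x * g * x⁻¹)
  rwa [inv_inv, show x⁻¹ * (x * g * x⁻¹) * x = g by group] at this

variable [Fintype G]

/-- `#H` divides the sum of `i(g)` outside `H`. -/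
theorem card_dvd_sum_outside (T : TotallyRamified G L) (hfaith : ∀ g, T.ij g = ⊤ → g = 1)
    (H : Subgroup G) [Fintype H] :
    (Fintype.card H : ℤ) ∣ ∑ g : G, iVal T g - ∑ h : H, iVal T (h : G) := by
  classical
  have hH : ∀ h : H, T.ij (h : G) = ⊤ → h = 1 := fun h hh => Subtype.ext (hfaith h hh)
  set q₁ : G ⧸ H := ((1 : G) : G ⧸ H) with hq₁
  set ϖ := T.normπ H with hϖ
  have hsmul : ∀ (g : G) (q : G ⧸ H), (g • q).out • ϖ = g • q.out • ϖ := fun g q => by
    obtain ⟨k, hk⟩ := QuotientGroup.mk_out_eq_mul H (g * q.out)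
    have e : (g • q : G ⧸ H) = ((g * q.out : G) : G ⧸ H) := by
      conv_lhs => rw [← q.out_eq]
      rfl
    rw [e, hk, mul_smul, mul_smul]
    congr 2
    exact T.normπ_mem H k
  set y := ∏ q ∈ (Finset.univ : Finset (G ⧸ H)).erase q₁, (q.out • ϖ - ϖ) with hy
  have hyF : y ∈ FixedPoints.subfield H L := fun h => by
    change (h : G) • y = y
    have hfix : (h : G) • q₁ = q₁ := by
      change (((h : G) * 1 : G) : G ⧸ H) = _
      rw [mul_one]
      exact QuotientGroup.eq.2 (by simp)
    rw [hy, Finset.smul_prod']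
    refine Finset.prod_equiv (MulAction.toPerm (h : G)) (fun q => ?_) fun q _ => ?_
    · simp only [Finset.mem_erase, Finset.mem_univ, and_true, MulAction.toPerm_apply]
      conv_rhs => rw [← hfix]
      rw [ne_eq, ne_eq, smul_left_cancel_iff]
    · rw [smul_sub, MulAction.toPerm_apply, hsmul]
      congr 1
      exact T.normπ_mem H h
  have hne : ∀ q ∈ (Finset.univ : Finset (G ⧸ H)).erase q₁, ∀ h : H, q.out * (h : G) ≠ 1 :=
    fun q hq h he => Finset.ne_of_mem_erase hq (by
      rw [← q.out_eq, hq₁]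
      refine QuotientGroup.eq.2 ?_
      rw [mul_eq_one_iff_eq_inv] at he
      rw [he, inv_inv, mul_one]
      exact h.2)
  have hvy : T.v y = ((∑ q ∈ (Finset.univ : Finset (G ⧸ H)).erase q₁,
      ∑ h : H, iVal T (q.out * h) : ℤ) : WithTop ℤ) := by
    rw [hy, T.v_prod, WithTop.coe_sum]
    refine Finset.sum_congr rfl fun q hq => ?_
    rw [hϖ, T.v_smul_sub_normπ_eq hH, WithTop.coe_sum]
    exact Finset.sum_congr rfl fun h _ => (coe_iVal T hfaith (hne q hq h)).symm
  have hbij : Function.Bijective fun qh : (G ⧸ H) × H => qh.1.out * (qh.2 : G) := by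
    refine ⟨fun a c h => ?_, fun x => ?_⟩
    · have h1 := congrArg (fun y : G => (y : G ⧸ H)) h
      simp only [QuotientGroup.mk_mul_of_mem _ a.2.2, QuotientGroup.mk_mul_of_mem _ c.2.2,
        Quotient.out_eq] at h1
      obtain ⟨q, h'⟩ := a
      obtain ⟨q', h''⟩ := c
      simp only at h h1
      subst h1
      exact Prod.ext rfl (Subtype.ext (mul_left_cancel h))
    · refine ⟨((x : G ⧸ H), ⟨(x : G ⧸ H).out⁻¹ * x, ?_⟩), mul_inv_cancel_left _ _⟩
      exact QuotientGroup.eq.1 (x : G ⧸ H).out_eq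
  have hq₁H : q₁.out ∈ H := by
    have := QuotientGroup.eq.1 (show ((q₁.out : G) : G ⧸ H) = ((1 : G) : G ⧸ H) from q₁.out_eq)
    simpa using this
  have hfirst : ∑ h : H, iVal T (q₁.out * h) = ∑ h : H, iVal T (h : G) :=
    Fintype.sum_equiv (Equiv.mulLeft ⟨q₁.out, hq₁H⟩) _ _ fun h => rfl
  rw [← hbij.sum_comp (fun g => iVal T g), Fintype.sum_prod_type,
    ← Finset.add_sum_erase _ _ (Finset.mem_univ q₁), hfirst, add_sub_cancel_left]
  exact T.card_dvd_of_mem hH hyF hvy

/-- The conductor of an induced linear character is an integer. -/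
theorem artinSum_induced (T : TotallyRamified G L) (hfaith : ∀ g, T.ij g = ⊤ → g = 1)
    (H : Subgroup G) (ψ : H →* ℂˣ) :
    ∃ z : ℤ, artinSum T (induced H fun y => (ψ y : ℂ)) = (z : ℂ) * Fintype.card G := by
  classical
  obtain ⟨a, ha⟩ := card_dvd_sum_outside T hfaith H
  obtain ⟨z, hz⟩ := artinSum_linear (restrictTo T H)
    (fun h hh => Subtype.ext (hfaith h hh)) ψ
  refine ⟨a + z, ?_⟩
  set φ : H → ℂ := fun y => (ψ y : ℂ) with hφ
  have hH0 : (Fintype.card H : ℂ) ≠ 0 := Nat.cast_ne_zero.2 Fintype.card_ne_zero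
  have hone : induced H φ 1 = (Fintype.card H : ℂ)⁻¹ * Fintype.card G := by
    rw [induced_eq, Nat.card_eq_fintype_card]
    congr 1
    rw [Finset.sum_congr rfl fun g _ => show zext H φ (g * 1 * g⁻¹) = 1 by
      rw [mul_one, mul_inv_cancel, ← H.coe_one, zext_coe, hφ]
      simp]
    simp
  have hind : ∑ x : G, (iVal T x : ℂ) * induced H φ x =
      (Fintype.card H : ℂ)⁻¹ * Fintype.card G * ∑ h : H, (iVal T (h : G) : ℂ) * φ h := by
    have hconj : ∀ g : G, ∑ x : G, (iVal T x : ℂ) * zext H φ (g * x * g⁻¹) =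
        ∑ h : H, (iVal T (h : G) : ℂ) * φ h := fun g => by
      rw [Fintype.sum_equiv (MulAut.conj g).toEquiv
        (fun x => (iVal T x : ℂ) * zext H φ (g * x * g⁻¹))
        (fun y => (iVal T y : ℂ) * zext H φ y) fun x => by
          show _ = (iVal T (g * x * g⁻¹) : ℂ) * _
          rw [iVal, iVal, ij_conj]
          rfl]
      rw [← Finset.sum_subset (Finset.subset_univ (Finset.univ.image ((↑) : H → G)))
        (fun y _ hy => by
          rw [zext_of_notMem H φ fun h => hy (Finset.mem_image.2 ⟨⟨y, h⟩, Finset.mem_univ _, rfl⟩),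
            mul_zero]), Finset.sum_image fun a _ c _ h => Subtype.ext h]
      simp only [zext_coe]
    simp only [induced_eq, Nat.card_eq_fintype_card, Finset.mul_sum]
    rw [Finset.sum_comm]
    simp only [mul_left_comm _ (Fintype.card H : ℂ)⁻¹, ← Finset.mul_sum, hconj, Finset.sum_const,
      Finset.card_univ, nsmul_eq_mul]
    ring
  have hψ1 : φ 1 = 1 := by rw [hφ]; exact congrArg Units.val ψ.map_one
  simp only [artinSum, iVal_restrictTo, mul_sub, Finset.sum_sub_distrib, ← Finset.sum_mul] at hz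
  rw [hψ1, mul_one] at hz
  have ha' : ∑ g : G, (iVal T g : ℂ) - ∑ h : H, (iVal T (h : G) : ℂ) =
      (Fintype.card H : ℂ) * (a : ℂ) := by exact_mod_cast ha
  simp only [artinSum, mul_sub, Finset.sum_sub_distrib, ← Finset.sum_mul, hone, hind]
  push_cast
  field_simp
  simp only [hφ] at hz ⊢
  linear_combination ha' + hz

/-- Integrality for every character. -/
theorem artinSum_character (T : TotallyRamified G L) (hfaith : ∀ g, T.ij g = ⊤ → g = 1)
    {V : Type*} [AddCommGroup V] [Module ℂ V] [FiniteDimensional ℂ V]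
    (ρ : Representation ℂ G V) :
    ∃ z : ℤ, artinSum T ρ.character = (z : ℂ) * Fintype.card G := by
  suffices key : ∀ χ ∈ brauerSpan G, ∃ z : ℤ, artinSum T χ = (z : ℂ) * Fintype.card G from
    key _ (character_mem_brauerSpan ρ)
  intro χ h
  induction h using AddSubgroup.closure_induction with
  | mem a ha =>
    obtain ⟨H, -, ψ, rfl⟩ := ha
    exact artinSum_induced T hfaith H ψ
  | zero => exact ⟨0, by simp [artinSum]⟩
  | add a b _ _ ha hb =>
    obtain ⟨k, hk⟩ := ha
    obtain ⟨l, hl⟩ := hb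
    refine ⟨k + l, ?_⟩
    rw [Int.cast_add, add_mul, ← hk, ← hl, artinSum, artinSum, artinSum, ← Finset.sum_add_distrib]
    exact Finset.sum_congr rfl fun g _ => by simp only [Pi.add_apply]; ring
  | neg a _ ha =>
    obtain ⟨k, hk⟩ := ha
    refine ⟨-k, ?_⟩
    rw [Int.cast_neg, neg_mul, ← hk, artinSum, artinSum, ← Finset.sum_neg_distrib]
    exact Finset.sum_congr rfl fun g _ => by simp only [Pi.neg_apply]; ring

end Fermat.Agent.ArtinConductor
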